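import Mathlib.LinearAlgebra.Eigenspace.Triangularizable
import Mathlib.RingTheory.Ideal.Operations

/-!
Common eigenvectors of a commutative ring acting on a finite dimensional vector space over an
algebraically closed field, and eigen-characters lying over a given prime of the ring.
-/

set_option autoImplicit false

namespace Fermat.Agent.MOD

open Module

variable {K V : Type*} [Field K] [AddCommGroup V] [Module K V]

/-- A commutative ring acting on a finite dimensional space has a common eigenvector in every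
nonzero invariant subspace. -/
theorem exists_common_eigvec [IsAlgClosed K] [FiniteDimensional K V] {R : Type*} [CommRing R]
    (φ : R →+* Module.End K V) (W : Submodule K V) (hW : W ≠ ⊥)
    (hinv : ∀ t : R, ∀ v ∈ W, φ t v ∈ W) :
    ∃ (g : V) (lam : R →+* K), g ∈ W ∧ g ≠ 0 ∧ ∀ t, φ t g = lam t • g := by
  induction hn : finrank K W using Nat.strong_induction_on generalizing W with
  | _ n ih =>
  subst hn
  by_cases hall : ∀ t : R, ∃ c : K, ∀ v ∈ W, φ t v = c • v
  · choose c hc using hall
    obtain ⟨g, hgW, hg⟩ := W.ne_bot_iff.1 hW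
    have huniq : ∀ t (d : K), φ t g = d • g → c t = d := fun t d hd => by
      have h0 : (c t - d) • g = 0 := by rw [sub_smul, ← hc t g hgW, hd, sub_self]
      exact sub_eq_zero.1 ((smul_eq_zero.1 h0).resolve_right hg)
    exact ⟨g,
      { toFun := c
        map_one' := huniq 1 1 (by simp)
        map_mul' := fun s t => huniq (s * t) _ (by
          rw [map_mul, Module.End.mul_apply, hc t g hgW, map_smul, hc s g hgW, smul_smul, mul_comm])
        map_zero' := huniq 0 0 (by simp)
        map_add' := fun s t => huniq (s + t) _ (by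
          rw [map_add, LinearMap.add_apply, hc t g hgW, hc s g hgW, add_smul]) },
      hgW, hg, fun t => hc t g hgW⟩
  · push Not at hall
    obtain ⟨t, ht⟩ := hall
    have : Nontrivial W := Submodule.nontrivial_iff_ne_bot.2 hW
    let r : Module.End K W := (φ t).restrict (hinv t)
    obtain ⟨μ, hμ⟩ := Module.End.exists_eigenvalue r
    obtain ⟨x, hx⟩ := hμ.exists_hasEigenvector
    let W' : Submodule K V := W ⊓ LinearMap.ker (φ t - μ • (1 : Module.End K V))
    have hmem : ∀ v, v ∈ W' ↔ v ∈ W ∧ φ t v = μ • v := fun v => by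
      simp [W', sub_eq_zero]
    have hne : W' ≠ ⊥ := by
      refine W'.ne_bot_iff.2 ⟨x, (hmem _).2 ⟨x.2, ?_⟩, ?_⟩
      · exact congrArg Subtype.val hx.apply_eq_smul
      · exact fun h => hx.2 (Subtype.ext h)
    have hinv' : ∀ s : R, ∀ v ∈ W', φ s v ∈ W' := fun s v hv => by
      rw [hmem] at hv ⊢
      refine ⟨hinv s v hv.1, ?_⟩
      rw [← Module.End.mul_apply, ← map_mul, mul_comm, map_mul, Module.End.mul_apply, hv.2,
        map_smul]
    have hlt : W' < W := by
      refine lt_of_le_of_ne inf_le_left fun h => ?_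
      obtain ⟨v, hv, hv'⟩ := ht μ
      rw [← h, hmem] at hv
      exact hv' hv.2
    obtain ⟨g, lam, hgW, hg, hlam⟩ :=
      ih _ (Submodule.finrank_lt_finrank_of_lt hlt) W' hne hinv' rfl
    exact ⟨g, lam, ((hmem g).1 hgW).1, hg, hlam⟩

/-- For a prime `𝔪` containing the kernel of the action there is an eigen-character whose kernel
is contained in `𝔪` (the form of the Deligne-Serre argument that we use). -/
theorem exists_eigvec_ker_le [IsAlgClosed K] [FiniteDimensional K V] {R : Type*} [CommRing R]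
    (φ : R →+* Module.End K V) (𝔪 : Ideal R) [h𝔪 : 𝔪.IsPrime] (hker : RingHom.ker φ ≤ 𝔪) :
    ∃ (g : V) (lam : R →+* K), g ≠ 0 ∧ (∀ t, φ t g = lam t • g) ∧ RingHom.ker lam ≤ 𝔪 := by
  by_contra hcon
  push Not at hcon
  suffices H : ∀ W : Submodule K V, (∀ t : R, ∀ v ∈ W, φ t v ∈ W) →
      ∃ t, t ∉ 𝔪 ∧ ∀ v ∈ W, φ t v = 0 by
    obtain ⟨t, ht, ht0⟩ := H ⊤ (fun _ _ _ => Submodule.mem_top)
    exact ht (hker (LinearMap.ext fun v => ht0 v Submodule.mem_top))
  intro W hinv
  induction hn : finrank K W using Nat.strong_induction_on generalizing W with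
  | _ n ih =>
  subst hn
  rcases eq_or_ne W ⊥ with hW | hW
  · refine ⟨1, (Ideal.ne_top_iff_one 𝔪).1 h𝔪.ne_top, fun v hv => ?_⟩
    rw [hW, Submodule.mem_bot] at hv
    simp [hv]
  obtain ⟨g, lam, hgW, hg, hlam⟩ := exists_common_eigvec φ W hW hinv
  obtain ⟨t₀, ht₀, ht₀'⟩ := SetLike.not_le_iff_exists.1 (hcon g lam hg hlam)
  let W' : Submodule K V := W.map (φ t₀)
  have hinv' : ∀ s : R, ∀ v ∈ W', φ s v ∈ W' := by
    rintro s _ ⟨w, hw, rfl⟩
    refine ⟨φ s w, hinv s w hw, ?_⟩
    rw [← Module.End.mul_apply, ← map_mul, mul_comm, map_mul, Module.End.mul_apply]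
  have hlt : finrank K W' < finrank K W := by
    let r : Module.End K W := (φ t₀).restrict (hinv t₀)
    have hrange : finrank K (LinearMap.range r) = finrank K W' := by
      have : (LinearMap.range r).map W.subtype = W' := by
        rw [← LinearMap.range_comp, show W.subtype ∘ₗ r = (φ t₀) ∘ₗ W.subtype from rfl,
          LinearMap.range_comp, Submodule.range_subtype]
      rw [← this, Submodule.finrank_map_subtype_eq]
    have hk : LinearMap.ker r ≠ ⊥ := by
      refine (LinearMap.ker r).ne_bot_iff.2 ⟨⟨g, hgW⟩, Subtype.ext ?_, fun h => hg ?_⟩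
      · change φ t₀ g = 0
        rw [hlam, RingHom.mem_ker.1 ht₀, zero_smul]
      · exact congrArg Subtype.val h
    have h1 := r.finrank_range_add_finrank_ker
    have h2 : finrank K (LinearMap.ker r) ≠ 0 := fun h => hk (Submodule.finrank_eq_zero.1 h)
    omega
  obtain ⟨t₁, ht₁, ht₁'⟩ := ih _ hlt W' hinv' rfl
  refine ⟨t₁ * t₀, fun h => (h𝔪.mem_or_mem h).elim ht₁ ht₀', fun v hv => ?_⟩
  rw [map_mul, Module.End.mul_apply]
  exact ht₁' _ ⟨v, hv, rfl⟩

end Fermat.Agent.MOD
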