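import Mathlib.LinearAlgebra.FiniteDimensional.Basic
import Mathlib.RingTheory.Noetherian.Basic
import Mathlib.RingTheory.Finiteness.Basic
import Fermat.Prelude.Def_CuspForm_HeckeAlgebra
import Fermat.Prelude.Def_CuspForm_IntegralStructure
import Fermat.Prelude.Thm_CongruenceSubgroup_one_mem_strictPeriods_Gamma0
import Fermat.Prelude.Thm_CuspForm_intLattice_fg
import Fermat.Prelude.Thm_CuspForm_mem_intLattice_of_mem_heckeAlgebra
import Fermat.Prelude.Thm_ModularFormClass_qCoeff_heckeT
import Fermat.Prelude.Thm_ModularFormClass_qCoeff_heckeU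
import Fermat.Prelude.Thm_ModularForm_sturm_bound_Gamma0

/-!
`q`-coefficients of cusp forms on `Γ₀(N)` as linear functionals, extensionality by coefficients,
finite dimensionality, and finiteness of the Hecke algebra over `ℤ`.
-/

set_option autoImplicit false

noncomputable section

namespace Fermat.Agent.MOD

open ModularFormClass CongruenceSubgroup

variable {N : ℕ} {k : ℤ}

theorem one_mem_periods (N : ℕ) :
    (1 : ℝ) ∈ (Subgroup.map (Matrix.SpecialLinearGroup.mapGL ℝ) (Gamma0 N)).strictPeriods :=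
  CongruenceSubgroup.one_mem_strictPeriods_Gamma0 N

/-- The `n`-th coefficient as a linear functional. -/
def cuspCoeff (N : ℕ) (k : ℤ) (n : ℕ) : CuspForm (Gamma0 N) k →ₗ[ℂ] ℂ where
  toFun f := qCoeff f n
  map_add' f g := by
    simp only [qCoeff, FunLike.coe_add]
    rw [ModularForm.qExpansion_add one_pos (one_mem_periods N) f g, map_add]
  map_smul' c f := by
    simp only [qCoeff, RingHom.id_apply, FunLike.coe_smul]
    rw [ModularForm.qExpansion_smul one_pos (one_mem_periods N) c f]
    simp

@[simp] theorem cuspCoeff_apply (f : CuspForm (Gamma0 N) k) (n : ℕ) :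
    cuspCoeff N k n f = qCoeff f n := rfl

theorem cuspCoeff_zero_index [NeZero N] (f : CuspForm (Gamma0 N) k) : qCoeff f 0 = 0 :=
  CuspFormClass.qExpansion_coeff_zero f one_pos (one_mem_periods N)

theorem cuspForm_eq_zero_of_sturm [NeZero N] {f : CuspForm (Gamma0 N) k}
    (h : ∀ n : ℕ, n ≤ (k * (Gamma0 N).index).toNat / 12 → qCoeff f n = 0) : f = 0 := by
  have hmf : (ModularFormClass.modularForm f : ModularForm (Gamma0 N) k) = 0 :=
    ModularForm.sturm_bound_Gamma0 N _ fun n hn => by
      have := h n hn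
      simpa [qCoeff] using this
  have hcoe : (⇑f : UpperHalfPlane → ℂ) = 0 := by
    have := congrArg (fun F : ModularForm (Gamma0 N) k => (⇑F : UpperHalfPlane → ℂ)) hmf
    simpa using this
  exact DFunLike.coe_injective (hcoe.trans FunLike.coe_zero.symm)

theorem cuspForm_ext_qCoeff [NeZero N] {f g : CuspForm (Gamma0 N) k}
    (h : ∀ n, qCoeff f n = qCoeff g n) : f = g := by
  rw [← sub_eq_zero]
  refine cuspForm_eq_zero_of_sturm fun n _ => ?_
  rw [← cuspCoeff_apply, map_sub, cuspCoeff_apply, cuspCoeff_apply, h, sub_self]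

/-- Cusp forms on `Γ₀(N)` form a finite dimensional space. Deliberately not a global instance. -/
theorem cuspForm_finiteDimensional [NeZero N] :
    FiniteDimensional ℂ (CuspForm (Gamma0 N) k) := by
  let B := (k * (Gamma0 N).index).toNat / 12
  let tr : CuspForm (Gamma0 N) k →ₗ[ℂ] (Fin (B + 1) → ℂ) :=
    LinearMap.pi fun i => cuspCoeff N k i
  refine FiniteDimensional.of_injective tr ((injective_iff_map_eq_zero tr).2 fun f hf => ?_)
  exact cuspForm_eq_zero_of_sturm fun n hn => congrFun hf ⟨n, Nat.lt_succ_of_le hn⟩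

theorem mem_intLattice_iff_qCoeff (f : CuspForm (Gamma0 N) k) :
    f ∈ CuspForm.intLattice N k ↔ ∀ n, ∃ m : ℤ, qCoeff f n = m := by
  refine ⟨fun hf => ?_, fun hf => Submodule.subset_span hf⟩
  rw [CuspForm.intLattice] at hf
  intro n
  induction hf using Submodule.span_induction with
  | mem x hx => exact hx n
  | zero => exact ⟨0, by rw [← cuspCoeff_apply, map_zero, Int.cast_zero]⟩
  | add x y _ _ hx hy =>
    obtain ⟨a, ha⟩ := hx
    obtain ⟨b, hb⟩ := hy
    exact ⟨a + b, by rw [← cuspCoeff_apply, map_add, cuspCoeff_apply, cuspCoeff_apply, ha, hb,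
      Int.cast_add]⟩
  | smul c x _ hx =>
    obtain ⟨a, ha⟩ := hx
    exact ⟨c * a, by rw [← cuspCoeff_apply, map_zsmul, cuspCoeff_apply, ha, zsmul_eq_mul,
      Int.cast_mul]⟩

section weightTwoOrMore

variable [NeZero N]

omit [NeZero N] in
theorem qCoeff_heckeTLin {p : ℕ} (hp : p.Prime) (hpN : ¬ p ∣ N) (f : CuspForm (Gamma0 N) k)
    (n : ℕ) :
    qCoeff (CuspForm.heckeTLin k hp hpN f) n =
      qCoeff f (n * p) + if p ∣ n then (p : ℂ) ^ (k - 1) * qCoeff f (n / p) else 0 := by
  rw [CuspForm.coe_heckeTLin_apply]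
  exact ModularFormClass.qCoeff_heckeT f (one_mem_periods N) hp.ne_zero n

theorem qCoeff_heckeULin {p : ℕ} (hp : p.Prime) (hpN : p ∣ N) (f : CuspForm (Gamma0 N) k)
    (n : ℕ) :
    qCoeff (CuspForm.heckeULin k hpN f) n = qCoeff f (n * p) := by
  rw [CuspForm.coe_heckeULin_apply]
  exact ModularFormClass.qCoeff_heckeU f (one_mem_periods N) hp.ne_zero n

/-- If the integral lattice spans, the Hecke algebra is a finite `ℤ`-module. -/
theorem heckeAlgebra_moduleFinite (hk : 1 ≤ k) (h : CuspForm.HasIntegralStructure N k)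
    (S : Set ℕ) : Module.Finite ℤ (CuspForm.heckeAlgebra N k S) := by
  have : Module.Finite ℤ (CuspForm.intLattice N k) :=
    Module.Finite.iff_fg.2 (CuspForm.intLattice_fg N k)
  obtain ⟨m, v, hv⟩ := Module.Finite.exists_fin (R := ℤ) (M := CuspForm.intLattice N k)
  let ρ : CuspForm.heckeAlgebra N k S →ₗ[ℤ] (Fin m → CuspForm.intLattice N k) :=
    { toFun := fun t i => ⟨t.1 (v i), CuspForm.mem_intLattice_of_mem_heckeAlgebra hk t.2 (v i).2⟩
      map_add' := fun s t => funext fun i => Subtype.ext rfl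
      map_smul' := fun c t => funext fun i => Subtype.ext rfl }
  refine Module.Finite.of_injective ρ ((injective_iff_map_eq_zero ρ).2 fun t ht => Subtype.ext ?_)
  change t.1 = 0
  refine LinearMap.ext_on h fun x hx => ?_
  have hz : ∀ y : CuspForm.intLattice N k, t.1 (y : CuspForm (Gamma0 N) k) = 0 := by
    intro y
    have hy : y ∈ Submodule.span ℤ (Set.range v) := hv ▸ Submodule.mem_top
    induction hy using Submodule.span_induction with
    | mem z hz =>
      obtain ⟨i, rfl⟩ := hz
      exact congrArg Subtype.val (congrFun ht i)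
    | zero => exact map_zero _
    | add a b _ _ ha hb => rw [Submodule.coe_add, map_add, ha, hb, add_zero]
    | smul c a _ ha => rw [Submodule.coe_smul, map_zsmul, ha, smul_zero]
  exact hz ⟨x, hx⟩

end weightTwoOrMore

end Fermat.Agent.MOD
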