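import Fermat.Agent.MOD.CuspCoeff

/-!
Common eigenvectors of all the `T_ℓ` and `U_q` in weight two are multiples of normalized
eigenforms, and the eigenvalues are the coefficients at primes.
-/

set_option autoImplicit false

noncomputable section

namespace Fermat.Agent.MOD

open ModularFormClass CongruenceSubgroup

variable {N : ℕ} [NeZero N]

/-- The coefficient relation satisfied by an eigenvector of all `T_ℓ` and `U_q` in weight `2`. -/
def EigRel (N : ℕ) (a lam : ℕ → ℂ) : Prop :=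
  ∀ p : ℕ, p.Prime → ∀ n : ℕ,
    a (p * n) = lam p * a n - if p ∣ n ∧ ¬ p ∣ N then (p : ℂ) * a (n / p) else 0

theorem eigRel_of_eigvec {g : CuspForm (Gamma0 N) 2} {lam : ℕ → ℂ}
    (hT : ∀ (p : ℕ) (hp : p.Prime) (hpN : ¬ p ∣ N), CuspForm.heckeTLin 2 hp hpN g = lam p • g)
    (hU : ∀ (p : ℕ) (_ : p.Prime) (hpN : p ∣ N), CuspForm.heckeULin 2 hpN g = lam p • g) :
    EigRel N (qCoeff g) lam := by
  intro p hp n
  have hsmul : qCoeff (⇑(lam p • g)) n = lam p * qCoeff g n := by
    rw [← cuspCoeff_apply, map_smul, cuspCoeff_apply, smul_eq_mul]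
  by_cases hpN : p ∣ N
  · have := qCoeff_heckeULin hp hpN g n
    rw [hU p hp hpN, hsmul] at this
    simp [this, hpN, mul_comm p n]
  · have := qCoeff_heckeTLin hp hpN g n
    rw [hT p hp hpN, hsmul] at this
    rw [this, show (2 : ℤ) - 1 = 1 by norm_num, zpow_one, mul_comm p n]
    simp [hpN]

omit [NeZero N] in
theorem eigRel_eq_zero {a lam : ℕ → ℂ} (h : EigRel N a lam) (h0 : a 0 = 0) (h1 : a 1 = 0) :
    ∀ n, a n = 0 := by
  intro n
  induction n using Nat.strong_induction_on with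
  | _ n ih =>
  rcases Nat.lt_or_ge n 2 with hn | hn
  · interval_cases n <;> assumption
  · obtain ⟨p, hp, m, rfl⟩ := Nat.exists_prime_and_dvd (n := n) (by omega)
    have hm : m < p * m := lt_mul_of_one_lt_left (by nlinarith) hp.one_lt
    rw [h p hp m, ih m hm, ih (m / p) ((Nat.div_le_self _ _).trans_lt hm)]
    simp

omit [NeZero N] in
theorem eigRel_prime {a lam : ℕ → ℂ} (h : EigRel N a lam) (h1 : a 1 = 1) {p : ℕ} (hp : p.Prime) :
    a p = lam p := by
  have := h p hp 1
  simpa [h1, hp.not_dvd_one] using this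

omit [NeZero N] in
theorem eigRel_mul {a lam : ℕ → ℂ} (h : EigRel N a lam) (h0 : a 0 = 0) (h1 : a 1 = 1) :
    ∀ m n : ℕ, m.Coprime n → a (m * n) = a m * a n := by
  intro m
  induction m using Nat.strong_induction_on with
  | _ m ih =>
  intro n hmn
  rcases Nat.lt_or_ge m 2 with hm | hm
  · interval_cases m <;> simp [h0, h1]
  · obtain ⟨p, hp, r, rfl⟩ := Nat.exists_prime_and_dvd (n := m) (by omega)
    have hr : r < p * r := lt_mul_of_one_lt_left (by nlinarith) hp.one_lt
    have hpn : ¬ p ∣ n :=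
      (Nat.Prime.coprime_iff_not_dvd hp).1 (Nat.Coprime.coprime_mul_right hmn)
    have hrn : r.Coprime n := Nat.Coprime.coprime_mul_left hmn
    rw [mul_assoc, h p hp (r * n), h p hp r, ih r hr n hrn]
    by_cases hpr : p ∣ r
    · have hdiv : r * n / p = r / p * n := Nat.div_mul_right_comm hpr n |>.symm
      have hcop : (r / p).Coprime n := hrn.coprime_dvd_left (Nat.div_dvd_of_dvd hpr)
      rw [hdiv, ih (r / p) ((Nat.div_le_self _ _).trans_lt hr) n hcop]
      simp only [hpr, hpr.mul_right n, true_and]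
      split_ifs <;> ring
    · have : ¬ p ∣ r * n := fun hd => (hp.dvd_mul.1 hd).elim hpr hpn
      simp only [hpr, this, false_and, if_false]
      ring

theorem eigRel_isNormalizedEigenform {g : CuspForm (Gamma0 N) 2} {lam : ℕ → ℂ}
    (h : EigRel N (qCoeff g) lam) (h1 : qCoeff g 1 = 1) : g.IsNormalizedEigenform where
  qCoeff_one := h1
  qCoeff_mul_of_coprime := eigRel_mul h (cuspCoeff_zero_index g) h1
  qCoeff_prime_pow_of_not_dvd p r hp hpN := by
    have hd : p ∣ p ^ (r + 1) := dvd_pow_self p (Nat.succ_ne_zero r)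
    have hq : p ^ (r + 1) / p = p ^ r := by
      rw [pow_succ, Nat.mul_div_cancel _ hp.pos]
    rw [pow_succ' p (r + 1), h p hp, eigRel_prime h h1 hp, if_pos ⟨hd, hpN⟩, hq]
  qCoeff_prime_pow_of_dvd p r hp hpN := by
    rw [pow_succ' p (r + 1), h p hp, eigRel_prime h h1 hp, if_neg fun hh => hh.2 hpN, sub_zero]

/-- A nonzero common eigenvector of all `T_ℓ` and `U_q` has a multiple which is a normalized
eigenform with the given eigenvalues as prime coefficients. -/
theorem exists_isNormalizedEigenform_of_eigvec {g : CuspForm (Gamma0 N) 2} (hg : g ≠ 0)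
    {lam : ℕ → ℂ}
    (hT : ∀ (p : ℕ) (hp : p.Prime) (hpN : ¬ p ∣ N), CuspForm.heckeTLin 2 hp hpN g = lam p • g)
    (hU : ∀ (p : ℕ) (_ : p.Prime) (hpN : p ∣ N), CuspForm.heckeULin 2 hpN g = lam p • g) :
    ∃ f : CuspForm (Gamma0 N) 2, f.IsNormalizedEigenform ∧
      (∃ c : ℂ, f = c • g) ∧ ∀ p : ℕ, p.Prime → qCoeff f p = lam p := by
  have hc : qCoeff g 1 ≠ 0 := fun hc => hg <| cuspForm_eq_zero_of_sturm fun n _ =>
    eigRel_eq_zero (eigRel_of_eigvec hT hU) (cuspCoeff_zero_index g) hc n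
  let f := (qCoeff g 1)⁻¹ • g
  have h1 : qCoeff f 1 = 1 := by
    change cuspCoeff N 2 1 ((qCoeff g 1)⁻¹ • g) = 1
    rw [map_smul, cuspCoeff_apply, smul_eq_mul, inv_mul_cancel₀ hc]
  have hf : EigRel N (qCoeff f) lam := eigRel_of_eigvec
    (fun p hp hpN => by rw [map_smul, hT p hp hpN, smul_comm])
    (fun p hp hpN => by rw [map_smul, hU p hp hpN, smul_comm])
  exact ⟨f, eigRel_isNormalizedEigenform hf h1, ⟨_, rfl⟩, fun p hp => eigRel_prime hf h1 hp⟩

end Fermat.Agent.MOD
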