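import Fermat.Agent.MOD.EigenCharacter
import Fermat.Agent.MOD.EigenformOfEigvec
import Mathlib.RingTheory.Ideal.GoingUp
import Mathlib.RingTheory.IntegralClosure.IsIntegralClosure.Basic
import Mathlib.Analysis.Complex.Polynomial.Basic

/-!
The Deligne-Serre lifting lemma for the weight two Hecke algebra with integral structure: an
integral cusp form which is an eigenvector modulo a prime `r` lifts to a normalized eigenform
with congruent eigenvalues.
-/

set_option autoImplicit false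

noncomputable section

namespace Fermat.Agent.MOD

open ModularFormClass CongruenceSubgroup

variable {N : ℕ} [NeZero N]

/-- `g` has coefficients congruent to `c` times those of `af`, modulo `r`. -/
def CongMul (r : ℕ) (af : ℕ → ℤ) (g : CuspForm (Gamma0 N) 2) (c : ℤ) : Prop :=
  ∃ u : ℕ → ℤ, (∀ n, qCoeff g n = u n) ∧ ∀ n, (r : ℤ) ∣ u n - c * af n

omit [NeZero N] in
theorem congMul_add {r : ℕ} {af : ℕ → ℤ} {g g' : CuspForm (Gamma0 N) 2} {c c' : ℤ}
    (h : CongMul r af g c) (h' : CongMul r af g' c') : CongMul r af (g + g') (c + c') := by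
  obtain ⟨u, hu, hu'⟩ := h
  obtain ⟨v, hv, hv'⟩ := h'
  refine ⟨u + v, fun n => ?_, fun n => ?_⟩
  · rw [← cuspCoeff_apply, map_add, cuspCoeff_apply, cuspCoeff_apply, hu, hv, Pi.add_apply,
      Int.cast_add]
  · obtain ⟨i, hi⟩ := hu' n
    obtain ⟨j, hj⟩ := hv' n
    exact ⟨i + j, by rw [Pi.add_apply]; linear_combination hi + hj⟩

omit [NeZero N] in
theorem congMul_algebraMap {r : ℕ} {af : ℕ → ℤ} {f : CuspForm (Gamma0 N) 2}
    (haf : ∀ n, qCoeff f n = af n) (z : ℤ) :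
    CongMul r af (algebraMap ℤ (Module.End ℂ (CuspForm (Gamma0 N) 2)) z f) z := by
  refine ⟨fun n => z * af n, fun n => ?_, fun n => by simp⟩
  rw [← cuspCoeff_apply, Module.algebraMap_end_apply, map_zsmul, cuspCoeff_apply, haf,
    zsmul_eq_mul, Int.cast_mul]

theorem congMul_comp {r : ℕ} (hr : r ≠ 0) {af : ℕ → ℤ} {f : CuspForm (Gamma0 N) 2}
    (haf : ∀ n, qCoeff f n = af n) {x y : Module.End ℂ (CuspForm (Gamma0 N) 2)}
    (hx : x ∈ CuspForm.heckeAlgebra N 2 ∅) {c d : ℤ}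
    (hc : CongMul r af (x f) c) (hd : CongMul r af (y f) d) :
    CongMul r af ((x * y) f) (c * d) := by
  obtain ⟨u, hu, hu'⟩ := hc
  obtain ⟨v, hv, hv'⟩ := hd
  -- `y f = d • f + r • g` with `g` integral
  let g : CuspForm (Gamma0 N) 2 := (r : ℂ)⁻¹ • (y f - (d : ℂ) • f)
  have hg : g ∈ CuspForm.intLattice N 2 := by
    refine (mem_intLattice_iff_qCoeff g).2 fun n => ?_
    obtain ⟨m, hm⟩ := hv' n
    refine ⟨m, ?_⟩
    change cuspCoeff N 2 n ((r : ℂ)⁻¹ • (y f - (d : ℂ) • f)) = _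
    simp only [map_smul, map_sub, cuspCoeff_apply, hv, haf, smul_eq_mul]
    have hm' : ((v n : ℂ) - (d : ℂ) * (af n : ℂ)) = (r : ℂ) * (m : ℂ) := by exact_mod_cast hm
    rw [hm', ← mul_assoc, inv_mul_cancel₀ (Nat.cast_ne_zero.2 hr), one_mul]
  have hxg := (mem_intLattice_iff_qCoeff (x g)).1
    (CuspForm.mem_intLattice_of_mem_heckeAlgebra (by norm_num) hx hg)
  choose w hw using hxg
  have hy : y f = (d : ℂ) • f + (r : ℂ) • g := by
    simp [g, smul_smul, mul_inv_cancel₀ (Nat.cast_ne_zero.2 hr : (r : ℂ) ≠ 0)]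
  refine ⟨fun n => d * u n + r * w n, fun n => ?_, fun n => ?_⟩
  · rw [Module.End.mul_apply, hy, map_add, map_smul, map_smul, ← cuspCoeff_apply, map_add,
      map_smul, map_smul, cuspCoeff_apply, cuspCoeff_apply, hu, hw]
    simp
  · obtain ⟨i, hi⟩ := hu' n
    exact ⟨d * i + w n, by linear_combination d * hi⟩

/-- If every generator sends `f` to a multiple of `f` modulo `r`, so does the whole algebra. -/
theorem congMul_heckeAlgebra {r : ℕ} (hr : r ≠ 0) {af : ℕ → ℤ} {f : CuspForm (Gamma0 N) 2}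
    (haf : ∀ n, qCoeff f n = af n)
    (hgen : ∀ t ∈ CuspForm.heckeGenerators N 2 ∅, ∃ c : ℤ, CongMul r af (t f) c)
    {t : Module.End ℂ (CuspForm (Gamma0 N) 2)} (ht : t ∈ CuspForm.heckeAlgebra N 2 ∅) :
    ∃ c : ℤ, CongMul r af (t f) c := by
  unfold CuspForm.heckeAlgebra at ht
  induction ht using Algebra.adjoin_induction with
  | mem x hx => exact hgen x hx
  | algebraMap z => exact ⟨z, congMul_algebraMap haf z⟩
  | add x y _ _ hx hy =>
    obtain ⟨c, hc⟩ := hx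
    obtain ⟨d, hd⟩ := hy
    exact ⟨c + d, by simpa using congMul_add hc hd⟩
  | mul x y hx' _ hx hy =>
    obtain ⟨c, hc⟩ := hx
    obtain ⟨d, hd⟩ := hy
    exact ⟨c * d, congMul_comp hr haf hx' hc hd⟩

/-- **Deligne-Serre lifting lemma.** -/
theorem deligneSerre_lift (hstr : CuspForm.HasIntegralStructure N 2) {r : ℕ} (hr : r.Prime)
    {f : CuspForm (Gamma0 N) 2} {af b : ℕ → ℤ} (haf : ∀ n, qCoeff f n = af n)
    (h1 : (r : ℤ) ∣ af 1 - 1)
    (hgen : ∀ p : ℕ, p.Prime → ∀ n : ℕ, (r : ℤ) ∣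
      af (n * p) + (if p ∣ n ∧ ¬ p ∣ N then (p : ℤ) * af (n / p) else 0) - b p * af n) :
    ∃ (g : CuspForm (Gamma0 N) 2) (_ : g.IsNormalizedEigenform)
      (𝔪' : Ideal (integralClosure ℤ ℂ)), 𝔪'.IsMaximal ∧ (r : integralClosure ℤ ℂ) ∈ 𝔪' ∧
      ∀ p : ℕ, p.Prime → ∃ c : integralClosure ℤ ℂ, (c : ℂ) = qCoeff g p ∧
        c - (b p : integralClosure ℤ ℂ) ∈ 𝔪' := by
  have := cuspForm_finiteDimensional (N := N) (k := 2)
  have : Module.Finite ℤ (CuspForm.heckeAlgebra N 2 ∅) :=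
    heckeAlgebra_moduleFinite (by norm_num) hstr ∅
  have := Fact.mk hr
  -- the generators act on `f` modulo `r` by `b`
  have hTf : ∀ (p : ℕ) (hp : p.Prime) (hpN : ¬ p ∣ N),
      CongMul r af (CuspForm.heckeTLin 2 hp hpN f) (b p) := by
    intro p hp hpN
    refine ⟨fun n => af (n * p) + (if p ∣ n ∧ ¬ p ∣ N then (p : ℤ) * af (n / p) else 0),
      fun n => ?_, hgen p hp⟩
    rw [qCoeff_heckeTLin hp hpN, haf, haf, show (2 : ℤ) - 1 = 1 by norm_num, zpow_one]
    by_cases hpn : p ∣ n <;> simp [hpn, hpN]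
  have hUf : ∀ (p : ℕ) (_ : p.Prime) (hpN : p ∣ N),
      CongMul r af (CuspForm.heckeULin 2 hpN f) (b p) := by
    intro p hp hpN
    refine ⟨fun n => af (n * p), fun n => ?_, fun n => ?_⟩
    · rw [qCoeff_heckeULin hp hpN, haf]
    · simpa [hpN] using hgen p hp n
  have hall : ∀ t ∈ CuspForm.heckeAlgebra N 2 ∅, ∃ c : ℤ, CongMul r af (t f) c := fun t =>
    congMul_heckeAlgebra hr.ne_zero haf fun s hs => by
      rcases hs with ⟨p, hp, hpN, -, rfl⟩ | ⟨p, hpN, hp, -, rfl⟩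
      · exact ⟨_, hTf p hp hpN⟩
      · exact ⟨_, hUf p hp hpN⟩
  have haf1 : (af 1 : ZMod r) = 1 := by
    rw [← sub_eq_zero, ← Int.cast_one, ← Int.cast_sub,
      ZMod.intCast_zmod_eq_zero_iff_dvd]
    exact h1
  -- the residual character
  choose c hc using fun t : CuspForm.heckeAlgebra N 2 ∅ => hall t.1 t.2
  have huniq : ∀ (t : CuspForm.heckeAlgebra N 2 ∅) (d : ℤ), CongMul r af (t.1 f) d →
      (c t : ZMod r) = d := by
    intro t d hd
    obtain ⟨u, hu, hu'⟩ := hc t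
    obtain ⟨v, hv, hv'⟩ := hd
    have huv : u 1 = v 1 := Int.cast_injective (α := ℂ) ((hu 1).symm.trans (hv 1))
    have e1 := (ZMod.intCast_zmod_eq_zero_iff_dvd _ r).2 (hu' 1)
    have e2 := (ZMod.intCast_zmod_eq_zero_iff_dvd _ r).2 (hv' 1)
    push_cast [haf1, mul_one, sub_eq_zero] at e1 e2
    rw [← e1, ← e2, huv]
  have hadd : ∀ s t, (c (s + t) : ZMod r) = c s + c t := fun s t => by
    rw [huniq (s + t) (c s + c t) (congMul_add (hc s) (hc t)), Int.cast_add]
  have hsmul : ∀ z : ℤ, (c (algebraMap ℤ _ z) : ZMod r) = z := fun z =>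
    huniq _ z (congMul_algebraMap haf z)
  have hmul : ∀ s t : CuspForm.heckeAlgebra N 2 ∅, (c (s * t) : ZMod r) = c s * c t := fun s t =>
    (huniq (s * t) (c s * c t) (congMul_comp hr.ne_zero haf s.2 (hc s) (hc t))).trans
      (Int.cast_mul _ _)
  let φ : CuspForm.heckeAlgebra N 2 ∅ →+* ZMod r :=
    { toFun := fun t => c t
      map_one' := by simpa using hsmul 1
      map_mul' := hmul
      map_zero' := by simpa using hsmul 0
      map_add' := hadd }
  let 𝔪 := RingHom.ker φ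
  have hsurj : Function.Surjective φ := fun z => by
    obtain ⟨m, rfl⟩ := ZMod.intCast_surjective z
    exact ⟨algebraMap ℤ _ m, hsmul m⟩
  have h𝔪 : 𝔪.IsMaximal := RingHom.ker_isMaximal_of_surjective φ hsurj
  -- a characteristic zero eigen-character below `𝔪`
  let act : CuspForm.heckeAlgebra N 2 ∅ →+* Module.End ℂ (CuspForm (Gamma0 N) 2) :=
    (CuspForm.heckeAlgebra N 2 ∅).val.toRingHom
  obtain ⟨g, lam, hg, hlam, hker⟩ := exists_eigvec_ker_le act 𝔪 (fun t ht => by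
    have : t = 0 := Subtype.ext ht
    simp [this])
  have hint : ∀ t, lam t ∈ integralClosure ℤ ℂ := fun t =>
    (Algebra.IsIntegral.isIntegral (R := ℤ) t).map lam.toIntAlgHom
  let lam' : CuspForm.heckeAlgebra N 2 ∅ →+* integralClosure ℤ ℂ :=
    lam.codRestrict (integralClosure ℤ ℂ) hint
  let := lam'.toAlgebra
  have : Algebra.IsIntegral (CuspForm.heckeAlgebra N 2 ∅) (integralClosure ℤ ℂ) :=
    ⟨fun x => (Algebra.IsIntegral.isIntegral (R := ℤ) x).tower_top⟩
  obtain ⟨𝔪', h𝔪', hcomap⟩ := Ideal.exists_ideal_over_maximal_of_isIntegral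
    (S := integralClosure ℤ ℂ) 𝔪 (fun t ht => hker (congrArg Subtype.val ht))
  have hmem : ∀ t, t ∈ 𝔪 → lam' t ∈ 𝔪' := fun t ht => by
    rw [← hcomap] at ht
    exact ht
  -- the eigenvalues at the primes
  let T : Nat.Primes → CuspForm.heckeAlgebra N 2 ∅ := fun p =>
    if h : (p : ℕ) ∣ N then CuspForm.heckeAlgebra.U p.2 h (Set.notMem_empty _)
    else CuspForm.heckeAlgebra.T p.2 h (Set.notMem_empty _)
  let ev : ℕ → ℂ := fun p => if hp : p.Prime then lam (T ⟨p, hp⟩) else 0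
  have hev : ∀ (p : ℕ) (hp : p.Prime), ev p = lam (T ⟨p, hp⟩) := fun p hp => dif_pos hp
  have hTT : ∀ (p : ℕ) (hp : p.Prime) (hpN : ¬ p ∣ N),
      (T ⟨p, hp⟩).1 = CuspForm.heckeTLin 2 hp hpN := fun p hp hpN => by simp [T, hpN]
  have hTU : ∀ (p : ℕ) (hp : p.Prime) (hpN : p ∣ N),
      (T ⟨p, hp⟩).1 = CuspForm.heckeULin 2 hpN := fun p hp hpN => by simp [T, hpN]
  obtain ⟨F, hF, -, hFev⟩ := exists_isNormalizedEigenform_of_eigvec hg (lam := ev)
    (fun p hp hpN => by rw [hev p hp, ← hTT p hp hpN]; exact hlam _)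
    (fun p hp hpN => by rw [hev p hp, ← hTU p hp hpN]; exact hlam _)
  refine ⟨F, hF, 𝔪', h𝔪', ?_, fun p hp => ⟨lam' (T ⟨p, hp⟩), ?_, ?_⟩⟩
  · have := hmem (r : CuspForm.heckeAlgebra N 2 ∅) (by
      rw [RingHom.mem_ker, map_natCast, ZMod.natCast_self])
    rwa [map_natCast] at this
  · rw [hFev p hp, hev p hp]
    rfl
  · have hb : T ⟨p, hp⟩ - (b p : CuspForm.heckeAlgebra N 2 ∅) ∈ 𝔪 := by
      rw [RingHom.mem_ker, map_sub, map_intCast, sub_eq_zero]
      refine huniq _ (b p) ?_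
      by_cases hpN : p ∣ N
      · rw [hTU p hp hpN]; exact hUf p hp hpN
      · rw [hTT p hp hpN]; exact hTf p hp hpN
    have := hmem _ hb
    rwa [map_sub, map_intCast] at this

end Fermat.Agent.MOD
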